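import Fermat.Agent.S35.G.SpecLevel

/-!
# S35, piece (G') — leaf FROB-RES (helper285)

`frobRes : FrobResStatement A E q` (exact shape of `Fermat/Agent/S35/G/SpecLevel.lean`):
a Frobenius lift `s` at `A` stabilising `E` induces on `R_E = A ∩ E` an automorphism `ψR`
(the restriction of `s²`) with `ψR r ≡ r ^ (q ^ 2)` modulo the maximal ideal.
-/

set_option autoImplicit false

noncomputable section

namespace Fermat.Agent.S35.G.H285

open Fermat.Agent.A2.Mod
open scoped Pointwise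

/-- Elements of the decomposition group preserve `A`. -/
theorem apply_mem_of_mem_decomp_h285 (A : ValuationSubring Qb) {τ : Qb ≃ₐ[ℚ] Qb}
    (hτ : τ ∈ A.decompositionSubgroup ℚ) {x : Qb} (hx : x ∈ A) : τ x ∈ A := by
  have h : τ • A = A := MulAction.mem_stabilizer_iff.mp hτ
  have h1 : τ • x ∈ τ • A := ValuationSubring.smul_mem_pointwise_smul τ x A hx
  rw [h] at h1
  exact h1

/-- A Frobenius element is congruent to the `q`-th power map on `A`. -/
theorem frob_sub_pow_mem_h285 (A : ValuationSubring Qb) {q : ℕ} {s : Qb ≃ₐ[ℚ] Qb}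
    (hs : A.IsFrobeniusAt s q) {z : Qb} (hz : z ∈ A) :
    A.valuation (s z - z ^ q) < 1 := by
  obtain ⟨hσD, hF⟩ := hs
  have h2 := hF (IsLocalRing.residue A ⟨z, hz⟩)
  rw [← IsLocalRing.ResidueField.residue_smul, ← map_pow] at h2
  have h3 : ((⟨s, hσD⟩ : A.decompositionSubgroup ℚ) • (⟨z, hz⟩ : A)) - (⟨z, hz⟩ : A) ^ q
      ∈ IsLocalRing.maximalIdeal A := by
    rw [← Ideal.Quotient.eq]
    exact h2
  rw [ValuationSubring.valuation_lt_one_iff] at h3
  exact h3

/-- `s² z ≡ z ^ (q²)` modulo the maximal ideal of `A`. -/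
theorem frob_sq_sub_pow_h285 (A : ValuationSubring Qb) {q : ℕ} {s : Qb ≃ₐ[ℚ] Qb}
    (hs : A.IsFrobeniusAt s q) {z : Qb} (hz : z ∈ A) :
    A.valuation (s (s z) - z ^ (q ^ 2)) < 1 := by
  have hsz : s z ∈ A := apply_mem_of_mem_decomp_h285 A hs.mem_decompositionSubgroup hz
  have h1 := frob_sub_pow_mem_h285 A hs hsz
  have h2 := frob_sub_pow_mem_h285 A hs hz
  -- `(s z)^q - (z^q)^q` is a multiple of `s z - z^q` in `A`
  obtain ⟨c, hc⟩ := sub_dvd_pow_sub_pow (⟨s z, hsz⟩ : A) (⟨z, hz⟩ ^ q) q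
  have hc' : (s z) ^ q - (z ^ q) ^ q = (s z - z ^ q) * (c : Qb) := by
    have := congrArg (Subtype.val : A → Qb) hc
    simpa using this
  have h3 : A.valuation ((s z) ^ q - (z ^ q) ^ q) < 1 := by
    rw [hc', map_mul]
    have hc1 : A.valuation (c : Qb) ≤ 1 := (A.valuation_le_one_iff _).2 c.2
    calc A.valuation (s z - z ^ q) * A.valuation (c : Qb)
        ≤ A.valuation (s z - z ^ q) * 1 := by gcongr
      _ = A.valuation (s z - z ^ q) := mul_one _
      _ < 1 := h2
  have e : s (s z) - z ^ (q ^ 2) = (s (s z) - (s z) ^ q) + ((s z) ^ q - (z ^ q) ^ q) := by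
    rw [sq, pow_mul]; ring
  rw [e]
  exact lt_of_le_of_lt (Valuation.map_add _ _ _) (max_lt h1 h3)

/-- Membership in the maximal ideal of `R_E = A ∩ E`, in terms of `A`. -/
theorem mem_maximalIdeal_RE_iff_h285 (A : ValuationSubring Qb) (E : IntermediateField ℚ Qb)
    (r : RE A E) :
    r ∈ IsLocalRing.maximalIdeal (RE A E) ↔
      (⟨((r : E) : Qb), r.2⟩ : A) ∈ IsLocalRing.maximalIdeal A := by
  constructor
  · intro h
    rw [IsLocalRing.mem_maximalIdeal, mem_nonunits_iff] at h ⊢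
    intro hu
    apply h
    obtain ⟨u, hu⟩ := hu
    have hmul : ((r : E) : Qb) * ((u⁻¹ : Aˣ) : A) = 1 := by
      have h1 : (u : A) * ((u⁻¹ : Aˣ) : A) = 1 := u.mul_inv
      have h2 := congrArg (Subtype.val : A → Qb) h1
      rw [hu] at h2
      exact h2
    have hr0 : ((r : E) : Qb) ≠ 0 := left_ne_zero_of_mul_eq_one hmul
    have hinv : (((r : E) : Qb))⁻¹ = ((u⁻¹ : Aˣ) : A) := by
      exact (mul_eq_one_iff_inv_eq₀ hr0).1 hmul
    have hmem : ((r : E))⁻¹ ∈ RE A E := by
      show ((algebraMap E Qb) ((r : E))⁻¹) ∈ A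
      have : (algebraMap E Qb) ((r : E))⁻¹ = (((r : E) : Qb))⁻¹ := map_inv₀ _ _
      rw [this, hinv]
      exact ((u⁻¹ : Aˣ) : A).2
    have hrE0 : (r : E) ≠ 0 := by
      intro h0
      apply hr0
      rw [h0]
      rfl
    refine ⟨⟨r, ⟨((r : E))⁻¹, hmem⟩, ?_, ?_⟩, rfl⟩
    · apply Subtype.ext
      show (r : E) * ((r : E))⁻¹ = 1
      exact mul_inv_cancel₀ hrE0
    · apply Subtype.ext
      show ((r : E))⁻¹ * (r : E) = 1
      exact inv_mul_cancel₀ hrE0
  · intro h'
    rw [IsLocalRing.mem_maximalIdeal, mem_nonunits_iff] at h' ⊢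
    intro hu
    apply h'
    obtain ⟨u, hu⟩ := hu
    have h1 : (u : RE A E) * ((u⁻¹ : (RE A E)ˣ) : RE A E) = 1 := u.mul_inv
    have h2 : ((r : E) : Qb) * ((((u⁻¹ : (RE A E)ˣ) : RE A E) : E) : Qb) = 1 := by
      have := congrArg (fun x : RE A E => (((x : E)) : Qb)) h1
      rw [hu] at this
      exact this
    have h3 : ((((u⁻¹ : (RE A E)ˣ) : RE A E) : E) : Qb) ∈ A :=
      ((u⁻¹ : (RE A E)ˣ) : RE A E).2
    refine ⟨⟨⟨_, r.2⟩, ⟨_, h3⟩, ?_, ?_⟩, rfl⟩
    · exact Subtype.ext h2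
    · apply Subtype.ext
      rw [mul_comm] at h2
      exact h2

/-- **FROB-RES.** -/
theorem frobRes (A : ValuationSubring Qb) (E : IntermediateField ℚ Qb) (q : ℕ) :
    FrobResStatement A E q := by
  intro _ _ s hs hfrob
  have hsD : s ∈ A.decompositionSubgroup ℚ := hfrob.mem_decompositionSubgroup
  have hsD' : s.symm ∈ A.decompositionSubgroup ℚ := inv_mem hsD
  have hsA : ∀ x : Qb, x ∈ A → s x ∈ A := fun x hx => apply_mem_of_mem_decomp_h285 A hsD hx
  have hsA' : ∀ x : Qb, x ∈ A → s.symm x ∈ A :=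
    fun x hx => apply_mem_of_mem_decomp_h285 A hsD' hx
  have ht : ∀ e : E, (((resE E s hs * resE E s hs) e : E) : Qb) = s (s (e : Qb)) := fun _ => rfl
  have hts : ∀ e : E, (((resE E s hs * resE E s hs).symm e : E) : Qb)
      = s.symm (s.symm (e : Qb)) := by
    intro e
    have h1 := ht ((resE E s hs * resE E s hs).symm e)
    rw [AlgEquiv.apply_symm_apply] at h1
    rw [h1, AlgEquiv.symm_apply_apply, AlgEquiv.symm_apply_apply]
  have hmem : ∀ r : RE A E, (resE E s hs * resE E s hs) (r : E) ∈ RE A E := by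
    intro r
    show (((resE E s hs * resE E s hs) (r : E) : E) : Qb) ∈ A
    rw [ht]
    exact hsA _ (hsA _ r.2)
  have hmem' : ∀ r : RE A E, (resE E s hs * resE E s hs).symm (r : E) ∈ RE A E := by
    intro r
    show (((resE E s hs * resE E s hs).symm (r : E) : E) : Qb) ∈ A
    rw [hts]
    exact hsA' _ (hsA' _ r.2)
  refine ⟨{ toFun := fun r => ⟨(resE E s hs * resE E s hs) (r : E), hmem r⟩
            invFun := fun r => ⟨(resE E s hs * resE E s hs).symm (r : E), hmem' r⟩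
            left_inv := fun r => Subtype.ext (AlgEquiv.symm_apply_apply _ _)
            right_inv := fun r => Subtype.ext (AlgEquiv.apply_symm_apply _ _)
            map_mul' := fun a b => Subtype.ext (map_mul _ _ _)
            map_add' := fun a b => Subtype.ext (map_add _ _ _) }, fun r => rfl, ?_⟩
  intro r
  rw [mem_maximalIdeal_RE_iff_h285, ValuationSubring.valuation_lt_one_iff]
  exact frob_sq_sub_pow_h285 A hfrob (z := ((r : E) : Qb)) r.2

end Fermat.Agent.S35.G.H285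

end
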