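import Fermat.Agent.S35.G.SpecLevel

/-!
# S35, piece (G') — leaf COORD (helper285)

`coord : CoordStatement E M q` (exact shape of `Fermat/Agent/S35/G/SpecLevel.lean`):
the coordinate `x = j · j_q` of level `M * q` has rational coefficients, hence is fixed by the
coefficientwise action of every automorphism of `E`.  Also the general generator form
`actE_jE_h285` (every `j_d`, `d ∣ N`, is fixed).
-/

set_option autoImplicit false

noncomputable section

namespace Fermat.Agent.S35.G.H285

open ModularCurve Fermat.Agent.A2.Mod

/-- Every generator `j_d = j(t^d)` of `F_{N,E}` is fixed by the coefficientwise action. -/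
theorem actE_jE_h285 (E : IntermediateField ℚ Qb) (N : ℕ) (t : E ≃ₐ[ℚ] E)
    (d : ℕ) [NeZero d] (hd : d ∣ N) :
    actE E N t (jE E N d hd) = jE E N d hd := by
  apply Subtype.ext
  show coeffMap (t : E →+* E) (coeffEmb E (qExpand ℚ d jq)) = coeffEmb E (qExpand ℚ d jq)
  exact coeffMap_coeffEmb t _

/-- **COORD.** -/
theorem coord (E : IntermediateField ℚ Qb) (M q : ℕ) [NeZero q] : CoordStatement E M q := by
  intro t
  unfold xE
  rw [map_mul, actE_jE_h285, actE_jE_h285]

end Fermat.Agent.S35.G.H285

end
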